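/-
Fermat/Agent/MAZ/Kum5/Abstract.lean  (helper5)

Programme MAZ (S15), brick K-DEF, abstract form: **the Kummer map** of an `N`-divisible smooth
`Γ`-module `J`, in the level cohomology of `SelCoh42`.

`tors J N : StableSub Γ J` is the `N`-torsion, `mulHom N : J →+[Γ] J` multiplication by `N`;
`0 → J[N] → J → J → 0` is short exact (`shortExact`), and

  `kum : J^Γ →+ H¹(Γ, J[N])`   := the connecting map `SelCoh42.delta`.

* `kum_eq_zero_iff` : `kum x = 0 ↔ x ∈ N • J^Γ`  (injectivity on `J^Γ / N J^Γ`);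
* `kum_eq_mk`       : for `N • y = x`, `kum x` is the class of `g ↦ g • y - y`;
* `kum_map`         : for an equivariant endomorphism `t` of `J` (a Hecke operator),
                       `kum (t x) = (t|J[N])_* (kum x)`;
* `res_kum_eq_zero_of_fixed` : if a subgroup `I` fixes some `y` with `N • y = x`, the restriction of
  `kum x` to `I` is trivial (the shape of (K1), (K3)).

Mathlib + `SelCoh42` only.
-/
import Mathlib
import Fermat.Agent.MAZ.SelCoh42.Simple

set_option autoImplicit false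
set_option linter.unusedSectionVars false
set_option linter.style.haveILetI false

namespace Fermat.Agent.MAZ.Kum5

open Fermat.Agent.MAZ.SelCoh42

universe u v

variable {Γ : Type v} [Group Γ] (𝒰 : LevelSets Γ)
variable (J : Type u) [AddCommGroup J] [DistribMulAction Γ J] (N : ℕ)

/-- The `N`-torsion, as a `Γ`-stable subgroup. -/
def tors : StableSub Γ J where
  W :=
    { carrier := {x | N • x = 0}
      zero_mem' := smul_zero N
      add_mem' := fun {x y} hx hy => by
        show N • (x + y) = 0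
        rw [smul_add, hx, hy, add_zero]
      neg_mem' := fun {x} hx => by
        show N • (-x) = 0
        rw [smul_neg, hx, neg_zero] }
  stable := fun g x hx => by
    show N • (g • x) = 0
    rw [← smul_comm, hx, smul_zero]

variable {J N} in
theorem mem_tors {x : J} : x ∈ (tors (Γ := Γ) J N).W ↔ N • x = 0 := Iff.rfl

/-- Multiplication by `N` as an equivariant map. -/
def mulHom : J →+[Γ] J where
  toFun x := N • x
  map_smul' g x := by
    show N • (g • x) = g • (N • x)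
    rw [smul_comm]
  map_zero' := smul_zero N
  map_add' x y := smul_add N x y

variable {J} in
@[simp] theorem mulHom_apply (x : J) : mulHom (Γ := Γ) J N x = N • x := rfl

variable {J N} in
/-- `0 → J[N] → J → J → 0`. -/
theorem shortExact (hdiv : ∀ x : J, ∃ y : J, N • y = x) :
    ShortExact (tors (Γ := Γ) J N).incl (mulHom (Γ := Γ) J N) where
  inj := (tors (Γ := Γ) J N).shortExact.inj
  surj := hdiv
  exact := fun x => by
    constructor
    · intro hx
      exact ⟨⟨x, hx⟩, rfl⟩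
    · rintro ⟨y, rfl⟩
      exact y.2

variable {J N}

/-- **The Kummer map** `J^Γ → H¹(Γ, J[N])`. -/
noncomputable def kum (hdiv : ∀ x : J, ∃ y : J, N • y = x) (hsm : IsSmooth 𝒰 J) :
    Inv (⊤ : Subgroup Γ) J →+ H1 𝒰 (tors (Γ := Γ) J N).W :=
  delta 𝒰 (shortExact hdiv) hsm

/-- The Kummer cocycle `g ↦ g • y - y` of a division point `y` of an invariant point. -/
noncomputable def kumCocycle (hdiv : ∀ x : J, ∃ y : J, N • y = x) (hsm : IsSmooth 𝒰 J) (y : J)
    (hy : ∀ g : Γ, g • (N • y) = N • y) : Z1 𝒰 (tors (Γ := Γ) J N).W :=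
  dcoc 𝒰 (shortExact hdiv) hsm ⟨y, mem_preInv.2 hy⟩

@[simp] theorem kumCocycle_apply (hdiv : ∀ x : J, ∃ y : J, N • y = x) (hsm : IsSmooth 𝒰 J) (y : J)
    (hy : ∀ g : Γ, g • (N • y) = N • y) (g : Γ) :
    (((kumCocycle 𝒰 hdiv hsm y hy).1 g : (tors (Γ := Γ) J N).W) : J) = g • y - y :=
  i_dcoc_apply 𝒰 (shortExact hdiv) hsm ⟨y, mem_preInv.2 hy⟩ g

/-- `kum x` is the class of the Kummer cocycle of any `y` with `N • y = x`. -/
theorem kum_eq_mk (hdiv : ∀ x : J, ∃ y : J, N • y = x) (hsm : IsSmooth 𝒰 J)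
    (x : Inv (⊤ : Subgroup Γ) J) (y : J) (hy : N • y = x.1) :
    kum 𝒰 hdiv hsm x = H1mk 𝒰 (kumCocycle 𝒰 hdiv hsm y (fun g => by
      rw [hy]; exact mem_Inv_top.1 x.2 g)) :=
  delta_apply_of 𝒰 (shortExact hdiv) hsm ⟨y, _⟩ x hy

/-- **Injectivity of the Kummer map modulo `N`**: `kum x = 0 ↔ x ∈ N • J^Γ`. -/
theorem kum_eq_zero_iff (hdiv : ∀ x : J, ∃ y : J, N • y = x) (hsm : IsSmooth 𝒰 J)
    (x : Inv (⊤ : Subgroup Γ) J) :
    kum 𝒰 hdiv hsm x = 0 ↔ ∃ y : J, (∀ g : Γ, g • y = y) ∧ N • y = x.1 := by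
  unfold kum
  rw [delta_eq_zero_iff]
  constructor
  · rintro ⟨y, rfl⟩
    exact ⟨y.1, mem_Inv_top.1 y.2, rfl⟩
  · rintro ⟨y, hy, hyx⟩
    exact ⟨⟨y, mem_Inv_top.2 hy⟩, Subtype.ext hyx⟩

/-! ### Functoriality in equivariant endomorphisms (Hecke operators) -/

/-- The restriction of an equivariant endomorphism of `J` to the `N`-torsion. -/
def torsMap (t : J →+[Γ] J) : (tors (Γ := Γ) J N).W →+[Γ] (tors (Γ := Γ) J N).W where
  toFun x := ⟨t x.1, by
    show N • t x.1 = 0
    rw [← map_nsmul, (x.2 : N • x.1 = 0), map_zero]⟩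
  map_smul' g x := Subtype.ext (map_smul t g x.1)
  map_zero' := Subtype.ext (map_zero t)
  map_add' x y := Subtype.ext (map_add t x.1 y.1)

@[simp] theorem torsMap_coe (t : J →+[Γ] J) (x : (tors (Γ := Γ) J N).W) :
    ((torsMap (N := N) t x : (tors (Γ := Γ) J N).W) : J) = t x.1 := rfl

/-- An equivariant endomorphism preserves the invariants. -/
def invEnd (t : J →+[Γ] J) : Inv (⊤ : Subgroup Γ) J →+ Inv (⊤ : Subgroup Γ) J := invMap ⊤ t

/-- **Hecke-equivariance of the Kummer map.** -/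
theorem kum_map (hdiv : ∀ x : J, ∃ y : J, N • y = x) (hsm : IsSmooth 𝒰 J) (t : J →+[Γ] J)
    (x : Inv (⊤ : Subgroup Γ) J) :
    kum 𝒰 hdiv hsm (invEnd t x) = H1map 𝒰 (torsMap (N := N) t) (kum 𝒰 hdiv hsm x) := by
  obtain ⟨y, hy⟩ := hdiv x.1
  have hty : N • t y = (invEnd t x).1 := by
    show N • t y = t x.1
    rw [← map_nsmul, hy]
  rw [kum_eq_mk 𝒰 hdiv hsm x y hy, kum_eq_mk 𝒰 hdiv hsm (invEnd t x) (t y) hty, H1map_mk]
  congr 1
  apply Subtype.ext
  funext g
  apply Subtype.ext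
  rw [Z1map_apply, torsMap_coe, kumCocycle_apply, kumCocycle_apply, map_sub, map_smul]

/-! ### Local triviality -/

/-- If `I` fixes a division point `y` of `x`, then the Kummer cocycle of `x` attached to `y`
vanishes on `I`; in particular every cocycle representing `kum x` is a coboundary on `I`
(helper42's `H1res_mk_eq_zero_iff` form of "unramified at `I`"). -/
theorem kumCocycle_eq_zero_of_fixed (hdiv : ∀ x : J, ∃ y : J, N • y = x) (hsm : IsSmooth 𝒰 J)
    (y : J) (hy : ∀ g : Γ, g • (N • y) = N • y) (I : Subgroup Γ) (hI : ∀ s ∈ I, s • y = y)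
    (s : Γ) (hs : s ∈ I) : (kumCocycle 𝒰 hdiv hsm y hy).1 s = 0 := by
  apply Subtype.ext
  rw [kumCocycle_apply, hI s hs, sub_self]
  rfl

/-- Every cocycle representing `kum x` is, on a subgroup `I` fixing some division point of `x`,
the coboundary of an `N`-torsion point. -/
theorem exists_coboundary_on_of_fixed (hdiv : ∀ x : J, ∃ y : J, N • y = x) (hsm : IsSmooth 𝒰 J)
    (x : Inv (⊤ : Subgroup Γ) J) (y : J) (hy : N • y = x.1) (I : Subgroup Γ)
    (hI : ∀ s ∈ I, s • y = y) (c : Z1 𝒰 (tors (Γ := Γ) J N).W)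
    (hc : H1mk 𝒰 c = kum 𝒰 hdiv hsm x) :
    ∃ v : (tors (Γ := Γ) J N).W, ∀ s ∈ I, c.1 s = s • v - v := by
  rw [kum_eq_mk 𝒰 hdiv hsm x y hy] at hc
  have h0 : H1mk 𝒰 (c - kumCocycle 𝒰 hdiv hsm y (fun g => by
      rw [hy]; exact mem_Inv_top.1 x.2 g)) = 0 := by rw [map_sub, hc, sub_self]
  obtain ⟨v, hv⟩ := (H1mk_eq_zero_iff 𝒰 _).1 h0
  refine ⟨v, fun s hs => ?_⟩
  have h1 := hv s
  simp only [AddSubgroup.coe_sub, Pi.sub_apply] at h1
  rw [kumCocycle_eq_zero_of_fixed 𝒰 hdiv hsm y _ I hI s hs, sub_zero] at h1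
  exact h1

end Fermat.Agent.MAZ.Kum5
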